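import Fermat.Agent.S55.G.Rec.Tow.Spec
import Fermat.Agent.S55.GAD.InfCoreH661

/-!
# S55 / REC2-TOW, leaf ALG-INF  (helper661)

* `infInj : TOW.InfInjSpec` — inflation `H²(Γ, C) → H²(Γ', C')` along a descent datum
  (`C = C'^{ker π}`) is injective on `p`-primary classes if `H¹(Q, C') = 0` for all `p`-subgroups
  `Q ≤ ker π`;
* `infResLift : TOW.InfResLiftSpec` — if `H¹(ker π, C') = 0`, every class of `H²(Γ', C')` which
  dies on `ker π` is inflated from `H²(Γ, C)`.

Both are proved for a generic coefficient ring `k` first (`infInj_generic`,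
`infResLift_generic`; this avoids the `Module ℤ` instance diamond) on top of the cochain-level
cores of helper954 (`H954/H2InfResCore`) and helper244 (`T/InfResTorsCoreH244`).
-/

set_option autoImplicit false
set_option linter.unusedSectionVars false
set_option linter.style.haveILetI false

open CategoryTheory groupCohomology

namespace Fermat.Agent.S55.G.Rec.TOW.H661

open Fermat.Agent.S55 Fermat.Agent.S55.H954 Fermat.Agent.S55.T.H244
open Fermat.Agent.S55.GAD.H661

section Generic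

variable {k G G' : Type} [CommRing k] [Group G] [Group G']

/-- If `H¹(Q, A) = 0` for all `p`-subgroups `Q ≤ H` of a finite normal subgroup `H ≤ G`, then
some `m` prime to `p` kills `H¹(H, A)` (cocycle form). -/
theorem hOneKilledBy_of_pSubgroups_le {p : ℕ} (hp : p.Prime) (A : Rep.{0} k G)
    (H : Subgroup G) [H.Normal] [Finite H]
    (hA : ∀ Q : Subgroup G, Q ≤ H → IsPGroup p Q →
      Limits.IsZero (groupCohomology (T.resSub A Q) 1)) :
    ∃ m : ℕ, p.Coprime m ∧ HOneKilledBy m A.ρ H := by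
  haveI : Fact p.Prime := ⟨hp⟩
  obtain ⟨P⟩ : Nonempty (Sylow p H) := inferInstance
  have hPp : IsPGroup p (P : Subgroup H) := P.isPGroup'
  have hQp : IsPGroup p ((P : Subgroup H).map H.subtype) := hPp.map H.subtype
  have hQle : (P : Subgroup H).map H.subtype ≤ H := by
    rintro _ ⟨t, -, rfl⟩
    exact t.2
  refine ⟨(P : Subgroup H).index, ?_, ?_⟩
  · exact (Nat.Prime.coprime_iff_not_dvd hp).2 P.not_dvd_index
  · exact hOneKilledBy_of_H1 (fun x =>
      hOne_nsmul_eq_zero_of_subgroup A H (P : Subgroup H)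
        (eq_zero_of_isZero_map_subtype A H (P : Subgroup H) (hA _ hQle hQp)) x)

/-- **ALG-INF, injectivity** (generic `k`). -/
theorem infInj_generic {p : ℕ} (hp : p.Prime)
    (π : G' →* G) (hπ : Function.Surjective π) [Finite π.ker]
    (A : Rep.{0} k G) (A' : Rep.{0} k G') (ι : Rep.res π A ⟶ A')
    (hinj : Function.Injective ι.hom)
    (hinv : ∀ a' : A'.V, (∀ s ∈ π.ker, A'.ρ s a' = a') → ∃ a : A.V, ι.hom a = a')
    (hA' : ∀ Q : Subgroup G', Q ≤ π.ker → IsPGroup p Q →
      Limits.IsZero (groupCohomology (T.resSub A' Q) 1))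
    (z : groupCohomology A 2) (k₀ : ℕ) (hpz : p ^ k₀ • z = 0)
    (hz : (groupCohomology.map π ι 2).hom z = 0) : z = 0 := by
  obtain ⟨m, hm, hH1⟩ := hOneKilledBy_of_pSubgroups_le hp A' π.ker hA'
  have h1 : m • z = 0 := nsmul_eq_zero_of_map_eq_zero π hπ A A' ι hinj hinv hH1 z hz
  exact eq_zero_of_coprime_nsmul (Nat.Coprime.pow_left k₀ hm) hpz h1

set_option backward.defeqAttrib.useBackward true in
set_option backward.isDefEq.respectTransparency false in
/-- **ALG-LIFT** (generic `k`): inflation–restriction + descent. -/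
theorem infResLift_generic (π : G' →* G) (hπ : Function.Surjective π)
    (A : Rep.{0} k G) (A' : Rep.{0} k G') (ι : Rep.res π A ⟶ A')
    (hinj : Function.Injective ι.hom)
    (hinv : ∀ a' : A'.V, (∀ s ∈ π.ker, A'.ρ s a' = a') → ∃ a : A.V, ι.hom a = a')
    (hH1 : Limits.IsZero (groupCohomology (T.resSub A' π.ker) 1))
    (Y : groupCohomology A' 2) (hY : (T.resMap A' π.ker 2).hom Y = 0) :
    ∃ γ : groupCohomology A 2, (groupCohomology.map π ι 2).hom γ = Y := by
  have hsub : Subsingleton (groupCohomology (T.resSub A' π.ker) 1) :=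
    (ModuleCat.isZero_iff_subsingleton).1 hH1
  have hH1' : HOneVanishes A'.ρ π.ker :=
    hOneVanishes_of_H1_eq_zero (fun x => Subsingleton.elim _ _)
  induction Y using H2_induction_on with | @h f =>
  have hx' : H2π (Rep.res π.ker.subtype A')
      (mapCocycles₂ π.ker.subtype (𝟙 (Rep.res π.ker.subtype A')) f) = 0 := by
    rw [← H2π_comp_map_apply π.ker.subtype]; exact hY
  obtain ⟨(φ : π.ker → A'), hφ⟩ := (H2π_eq_zero_iff _).1 hx'
  have hcoc : IsTwoCocycle A'.ρ f := (mem_cocycles₂_iff _).1 f.2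
  have hφ' : ∀ s t : π.ker, f ((s : G'), (t : G')) = A'.ρ s (φ t) - φ (s * t) + φ s := by
    intro s t
    have := congr_fun hφ (s, t)
    rw [d₁₂_hom_apply] at this
    exact this.symm
  obtain ⟨c, f', hff', hf'coc, i2, i1, i3⟩ :=
    exists_inflated_of_res_coboundary A'.ρ π.ker hH1' hcoc φ hφ'
  -- equivariance of `ι`
  have hι : ∀ (g : G') (a : A.V), ι.hom (A.ρ (π g) a) = A'.ρ g (ι.hom a) :=
    fun g a => Rep.hom_comm_apply ι g a
  have hwd : ∀ g₁ h₁ g₂ h₂ : G', π g₁ = π g₂ → π h₁ = π h₂ → f' (g₁, h₁) = f' (g₂, h₂) := by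
    intro g₁ h₁ g₂ h₂ hg hh
    have hs : g₁⁻¹ * g₂ ∈ π.ker := by
      rw [MonoidHom.mem_ker, map_mul, map_inv, hg, inv_mul_cancel]
    have ht : h₁⁻¹ * h₂ ∈ π.ker := by
      rw [MonoidHom.mem_ker, map_mul, map_inv, hh, inv_mul_cancel]
    have e1 : g₂ = g₁ * (g₁⁻¹ * g₂) := by group
    have e2 : h₂ = h₁ * (h₁⁻¹ * h₂) := by group
    rw [e1, e2, i1 _ hs, i2 _ ht]
  have hex : ∀ q : G × G, ∃ a : A.V,
      ι.hom a = f' (Function.surjInv hπ q.1, Function.surjInv hπ q.2) :=
    fun q => hinv _ (fun s hs => i3 s hs _ _)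
  choose x hx using hex
  have hx' : ∀ g h : G', ι.hom (x (π g, π h)) = f' (g, h) := by
    intro g h
    rw [hx]
    exact hwd _ _ _ _ (Function.surjInv_eq hπ (π g)) (Function.surjInv_eq hπ (π h))
  have hxcoc : x ∈ cocycles₂ A := by
    rw [mem_cocycles₂_iff]
    intro g h j
    obtain ⟨g', rfl⟩ := hπ g
    obtain ⟨h', rfl⟩ := hπ h
    obtain ⟨j', rfl⟩ := hπ j
    apply hinj
    rw [map_add, map_add, hι, ← map_mul, ← map_mul, hx', hx', hx', hx']
    exact hf'coc g' h' j'
  refine ⟨H2π A ⟨x, hxcoc⟩, ?_⟩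
  erw [H2π_comp_map_apply π]
  rw [H2π_eq_iff]
  refine ⟨-c, ?_⟩
  funext ⟨g, j⟩
  have := congr_fun hff' (g, j)
  rw [d₁₂_hom_apply]
  change _ = ι.hom (x (π g, π j)) - f (g, j)
  rw [hx', this]
  simp only [Pi.add_apply, dOne_apply, Pi.neg_apply, map_neg]
  abel

end Generic

/-- **REC2-TOW leaf ALG-INF, part 1**: `InfInjSpec`. -/
theorem infInj : InfInjSpec := by
  intro p hp Γ' Γ _ _ _ π hπ C C' ι hι hH1 z hz h0
  obtain ⟨k₀, hk₀⟩ := hz
  haveI : Finite π.ker := inferInstance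
  exact infInj_generic hp π hπ C C' ι hι.1 (fun a' ha' => hι.2 a' ha') hH1 z k₀ hk₀ h0

/-- **REC2-TOW leaf ALG-INF, part 2**: `InfResLiftSpec`. -/
theorem infResLift : InfResLiftSpec := by
  intro Γ' Γ _ _ _ π hπ C C' ι hι hH1 Y hY
  exact infResLift_generic π hπ C C' ι hι.1 (fun a' ha' => hι.2 a' ha') hH1 Y hY

end Fermat.Agent.S55.G.Rec.TOW.H661
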